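/-
S45, block TAB (helper87): the two cases of the induction step of the table, in abstract form
(three fields `F0 → E → F`; no tower).
-/
import Fermat.Agent.S45.Tab.Step

set_option autoImplicit false
set_option linter.style.haveILetI false

namespace Fermat.Agent.S45.TabA

open Fermat.Agent.S18 Fermat.Agent.S36.BP Fermat.Agent.S36.BP.BuildHalf Fermat.Agent.S45.Tab

section Transfer

variable {A B : Type*} [Field A] [Field B] {f : A →+* B} {W : ValuationSubring B}
  {U : ValuationSubring A}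

theorem cm_mem_iff (h : W.comap f = U) (x : A) : f x ∈ W ↔ x ∈ U := by
  rw [← h]; rfl

theorem cm_lt_one_iff (h : W.comap f = U) (x : A) : W.valuation (f x) < 1 ↔ U.valuation x < 1 := by
  letI := f.toAlgebra
  exact tr_lt_one_iff h x

theorem cm_le_one_iff (h : W.comap f = U) (x : A) : W.valuation (f x) ≤ 1 ↔ U.valuation x ≤ 1 := by
  letI := f.toAlgebra
  exact tr_le_one_iff h x

theorem cm_eq_one_iff (h : W.comap f = U) (x : A) : W.valuation (f x) = 1 ↔ U.valuation x = 1 := by
  letI := f.toAlgebra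
  exact tr_eq_one_iff h x

/-- transfer of `U x ≤ U y` -/
theorem cm_le (h : W.comap f = U) {x y : A} (hxy : U.valuation x ≤ U.valuation y) :
    W.valuation (f x) ≤ W.valuation (f y) := by
  rcases eq_or_ne y 0 with rfl | hy
  · rw [map_zero, le_zero_iff, map_eq_zero] at hxy
    rw [hxy]
  · have h1 : U.valuation (x / y) ≤ 1 := by
      rw [map_div₀]
      exact div_le_one_of_le₀ hxy zero_le
    have h2 := (cm_le_one_iff h _).2 h1
    rw [map_div₀, map_div₀] at h2
    have hy' : W.valuation (f y) ≠ 0 := (Valuation.ne_zero_iff _).2 ((map_ne_zero f).2 hy)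
    exact (div_le_one₀ (zero_lt_iff.2 hy')).1 h2

/-- transfer of `U x = U y` -/
theorem cm_eq (h : W.comap f = U) {x y : A} (hxy : U.valuation x = U.valuation y) :
    W.valuation (f x) = W.valuation (f y) :=
  le_antisymm (cm_le h hxy.le) (cm_le h hxy.ge)

end Transfer

variable {F0 E F : Type*} [Field F0] [Field E] [Field F] [CharZero E]

/-- **Case `b > a` (or `a > b`)**: `W` above `W'`, the residue field of `W'` is `δ' (k(V0))`, the
residue field of `W` is `δ (k(V0))`, purely inseparable of degree `q` over it. -/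
theorem insep_case (φ : E →+* F) (δ' : F0 →+* E) (δ : F0 →+* F) {q : ℕ} (hq : q.Prime)
    (hdeg : (letI := φ.toAlgebra; Module.finrank E F) = q)
    {V0 : ValuationSubring F0} {W' : ValuationSubring E} {W : ValuationSubring F} {s : E} {j : F0}
    (hU : IsUnif W' s) (hqU : W'.valuation (q : E) < 1) (hW : W.comap φ = W')
    (hW' : W'.comap δ' = V0) (hj : j ∈ V0) (hins : ∀ y : F0, ¬ V0.valuation (y ^ q - j) < 1)
    (hdense : ∀ y ∈ W', ∃ r : F0, W'.valuation (δ' r - y) < 1)
    (hfrob : W.valuation (φ (δ' j) - δ j ^ q) < 1)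
    (hshift : ∀ r ∈ V0, ∃ r' : F0, W.valuation (φ (δ' r) - δ r') < 1) :
    IsRad q φ ((φ : E →* F).comp (letI := φ.toAlgebra; Algebra.norm E)) W' W ∧ IsUnif W (φ s) ∧
      ∀ y ∈ W, ∃ r : F0, W.valuation (δ r - y) < 1 := by
  have hjW : W.valuation (φ (δ' j)) ≤ 1 :=
    (cm_le_one_iff hW _).2 ((cm_le_one_iff hW' _).2 ((V0.valuation_le_one_iff _).2 hj))
  have hy₀' : W.valuation (δ j) ≤ 1 := by
    have h1 : W.valuation (δ j ^ q) ≤ 1 := Cong.le_one (Cong.symm hfrob) hjW
    rw [map_pow] at h1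
    exact (pow_le_one_iff_of_nonneg zero_le hq.ne_zero).1 h1
  have hy₀ : δ j ∈ W := (W.valuation_le_one_iff _).1 hy₀'
  have hn : ∀ y' : E, ¬ W.valuation (φ y' - δ j) < 1 := by
    intro y' hy'
    have h1 : y' ∈ W' := by
      rw [← cm_mem_iff hW, ← W.valuation_le_one_iff]
      exact Cong.le_one hy' hy₀'
    obtain ⟨r, hr⟩ := hdense y' h1
    have h2 : Cong W (φ (δ' r)) (φ y') := by
      rw [cong_iff, ← map_sub]
      exact (cm_lt_one_iff hW _).2 hr
    have h3 : Cong W (φ (δ' r)) (δ j) := h2.trans hy'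
    have h4 : Cong W (φ (δ' r) ^ q) (φ (δ' j)) := (h3.pow hy₀' q).trans (Cong.symm hfrob)
    rw [cong_iff, ← map_pow, ← map_pow, ← map_sub, ← map_sub, cm_lt_one_iff hW,
      cm_lt_one_iff hW'] at h4
    exact hins r h4
  refine ⟨insep_isRad φ hq hdeg hU hqU hW hy₀ hfrob hn,
    insep_isUnif φ hq hdeg hU hqU hW hy₀ hfrob hn, fun y hy => ?_⟩
  obtain ⟨t, ⟨r, rfl⟩, ht⟩ := insep_dense φ hq hdeg hU hqU hW hy₀ hfrob hn δ.range ⟨j, rfl⟩
    (fun d hd => by
      obtain ⟨r, hr⟩ := hdense d hd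
      have hr' : r ∈ V0 := by
        rw [← cm_mem_iff hW', ← W'.valuation_le_one_iff]
        exact Cong.le_one hr ((W'.valuation_le_one_iff _).2 hd)
      obtain ⟨r', hr'⟩ := hshift r hr'
      refine ⟨δ r', ⟨r', rfl⟩, ?_⟩
      have h2 : Cong W (φ (δ' r)) (φ d) := by
        rw [cong_iff, ← map_sub]
        exact (cm_lt_one_iff hW _).2 hr
      exact (Cong.symm h2).trans hr') hy
  exact ⟨r, ht⟩

/-- **Case `a = b`**: `W` above `W'`, totally ramified. -/
theorem ram_case (φ : E →+* F) (δ' : F0 →+* E) {q : ℕ} (hq : q.Prime)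
    (hdeg : (letI := φ.toAlgebra; Module.finrank E F) = q)
    {W' : ValuationSubring E} {W : ValuationSubring F} {s : E} {z : F}
    (hU : IsUnif W' s) (hqU : W'.valuation (q : E) < 1) (hW : W.comap φ = W')
    (hdense : ∀ y ∈ W', ∃ r : F0, W'.valuation (δ' r - y) < 1)
    (hz : W.valuation z ^ q = W.valuation (φ s)) :
    IsRad q φ ((φ : E →* F).comp (letI := φ.toAlgebra; Algebra.norm E)) W' W ∧ IsUnif W z ∧
      ∀ y ∈ W, ∃ r : F0, W.valuation (φ (δ' r) - y) < 1 := by
  refine ⟨ram_isRad φ hq hdeg hU hqU hW hz, ram_isUnif φ hq hdeg hU hW hz, fun y hy => ?_⟩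
  obtain ⟨y', hy'⟩ := ram_dense φ hq hdeg hU hW hz hy
  have h1 : y' ∈ W' := by
    rw [← cm_mem_iff hW, ← W.valuation_le_one_iff]
    exact Cong.le_one hy' ((W.valuation_le_one_iff _).2 hy)
  obtain ⟨r, hr⟩ := hdense y' h1
  refine ⟨r, ?_⟩
  have h2 : Cong W (φ (δ' r)) (φ y') := by
    rw [cong_iff, ← map_sub]
    exact (cm_lt_one_iff hW _).2 hr
  exact h2.trans hy'

/-- valuation subrings extend along field embeddings -/
theorem exists_comap_eq {A B : Type*} [Field A] [Field B] (f : A →+* B) (U : ValuationSubring A) :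
    ∃ W : ValuationSubring B, W.comap f = U := by
  obtain ⟨W, h, hloc⟩ := IsLocalRing.exists_factor_valuationRing (f.comp U.subtype)
  refine ⟨W, ?_⟩
  ext a
  rw [ValuationSubring.mem_comap]
  constructor
  · intro ha
    by_contra hcon
    have ha0 : a ≠ 0 := by
      rintro rfl
      exact hcon U.zero_mem
    have hainv : a⁻¹ ∈ U := (U.mem_or_inv_mem a).resolve_left hcon
    have hunit : IsUnit ((f.comp U.subtype).codRestrict W.toSubring h ⟨a⁻¹, hainv⟩) := by
      refine isUnit_iff_exists_inv.mpr ⟨⟨f a, ha⟩, ?_⟩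
      apply Subtype.ext
      show f a⁻¹ * f a = 1
      rw [← map_mul, inv_mul_cancel₀ ha0, map_one]
    have hunit' : IsUnit (⟨a⁻¹, hainv⟩ : U) := hloc.map_nonunit _ hunit
    obtain ⟨b, hb⟩ := isUnit_iff_exists_inv.mp hunit'
    have hb' : a⁻¹ * (b : A) = 1 := congrArg Subtype.val hb
    have : (b : A) = a := by
      field_simp at hb'
      exact hb'
    exact hcon (this ▸ b.2)
  · intro ha
    exact h ⟨a, ha⟩

end Fermat.Agent.S45.TabA
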