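/-
S45, block TAB (helper87): the TYPE of a vertical valuation of level `k + 1` of the tower, and the
formal ("light") part of the table: verticality, disjointness of the types, first and last letter,
completeness.

A valuation subring `W` of `T.F (k + 1)` has type `a` (`= F^a V^(k+1-a)`, `a ≤ k + 1`) if
* `k = 0`: `W = V1 0` (`a ≥ 1`, type `F`) resp. `W = V1 1` (`a = 0`, type `V`);
* `k ≥ 1`: `W ∩ α F_k` has type `min a k` (forget the last letter) and `W ∩ β F_k` has type `a - 1`
  (forget the first letter).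
-/
import Fermat.Agent.S45.Mod.Tower

set_option autoImplicit false

noncomputable section

namespace Fermat.Agent.S45.TabA

open Fermat.Agent.S18 Fermat.Agent.S36.BP Fermat.Agent.S45.Mod

variable {K : Type} [Field K] (T : Tower K)

/-- `W` (level `k + 1`) has type `F^a V^(k+1-a)`. -/
def HasType (V1 : Fin 2 → ValuationSubring (T.F 1)) :
    ∀ k : ℕ, ℕ → ValuationSubring (T.F (k + 1)) → Prop
  | 0, a, W => W = V1 (if a = 0 then 1 else 0)
  | k + 1, a, W => HasType V1 k (min a (k + 1)) (W.comap (T.al (k + 1)).toRingHom) ∧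
      HasType V1 k (a - 1) (W.comap (T.be (k + 1)).toRingHom)

/-- `f(z) ↦ f(z)`, from level `1` to level `k + 1`. -/
def ia : ∀ k, T.F 1 →ₐ[K] T.F (k + 1)
  | 0 => AlgHom.id K _
  | k + 1 => (T.al (k + 1)).comp (ia k)

/-- `f(z) ↦ f(q^k z)`, from level `1` to level `k + 1`. -/
def ib : ∀ k, T.F 1 →ₐ[K] T.F (k + 1)
  | 0 => AlgHom.id K _
  | k + 1 => (T.be (k + 1)).comp (ib k)

theorem ia_succ (k : ℕ) (y : T.F 1) : ia T (k + 1) y = T.al (k + 1) (ia T k y) := rfl
theorem ib_succ (k : ℕ) (y : T.F 1) : ib T (k + 1) y = T.be (k + 1) (ib T k y) := rfl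

theorem ia_al (k : ℕ) (y : T.F 0) : ia T k (T.al 0 y) = T.da (k + 1) y := by
  induction k with
  | zero => rfl
  | succ k ih => rw [ia_succ, ih, T.da_succ (k + 1)]

theorem ib_be (k : ℕ) (y : T.F 0) : ib T k (T.be 0 y) = T.db (k + 1) y := by
  induction k with
  | zero => rfl
  | succ k ih => rw [ib_succ, ih, T.db_succ (k + 1)]

variable {T} {q : ℕ}

theorem ia_be (G : T.Gen q) (k : ℕ) (y : T.F 0) : ia T k (T.be 0 y) = T.be k (T.da k y) := by
  induction k with
  | zero => rfl
  | succ k ih => rw [ia_succ, ih, G.comm, ← T.da_succ]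

theorem ib_al (G : T.Gen q) (k : ℕ) (y : T.F 0) : ib T k (T.al 0 y) = T.al k (T.db k y) := by
  induction k with
  | zero => rfl
  | succ k ih => rw [ib_succ, ih, ← G.comm, ← T.db_succ]

/-- comap along a composite -/
theorem comap_comp' {A B C : Type*} [Field A] [Field B] [Field C] (W : ValuationSubring C)
    (g : B →+* C) (f : A →+* B) : W.comap (g.comp f) = (W.comap g).comap f := rfl

variable {A₀ : ValuationSubring K} {V0 : ValuationSubring (T.F 0)}
  {V1 : Fin 2 → ValuationSubring (T.F 1)} {V2 : Fin 3 → ValuationSubring (T.F 2)}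

theorem HasType.comap_da (B : T.Base A₀ q V0 V1 V2) :
    ∀ {k a : ℕ} {W : ValuationSubring (T.F (k + 1))}, HasType T V1 k a W →
      W.comap (T.da (k + 1)).toRingHom = V0
  | 0, a, W, h => by
    have h' : W = V1 (if a = 0 then 1 else 0) := h
    rw [h']
    exact B.comap_al1 _
  | k + 1, a, W, h => by
    have h1 := HasType.comap_da B h.1
    exact h1

theorem HasType.comap_db (B : T.Base A₀ q V0 V1 V2) :
    ∀ {k a : ℕ} {W : ValuationSubring (T.F (k + 1))}, HasType T V1 k a W →
      W.comap (T.db (k + 1)).toRingHom = V0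
  | 0, a, W, h => by
    have h' : W = V1 (if a = 0 then 1 else 0) := h
    rw [h']
    exact B.comap_be1 _
  | k + 1, a, W, h => by
    have h1 := HasType.comap_db B h.2
    exact h1

/-- the first letter -/
theorem HasType.comap_ia :
    ∀ {k a : ℕ} {W : ValuationSubring (T.F (k + 1))}, HasType T V1 k a W →
      W.comap (ia T k).toRingHom = V1 (if a = 0 then 1 else 0)
  | 0, a, W, h => h
  | k + 1, a, W, h => by
    have h1 := HasType.comap_ia h.1
    have h2 : (min a (k + 1) = 0) ↔ a = 0 := by omega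
    simp only [h2] at h1
    exact h1

/-- the last letter -/
theorem HasType.comap_ib :
    ∀ {k a : ℕ} {W : ValuationSubring (T.F (k + 1))}, HasType T V1 k a W → a ≤ k + 1 →
      W.comap (ib T k).toRingHom = V1 (if a = k + 1 then 0 else 1)
  | 0, a, W, h, ha => by
    have h' : W = V1 (if a = 0 then 1 else 0) := h
    have : W.comap (ib T 0).toRingHom = W := rfl
    rw [this, h']
    congr 1
    by_cases h0 : a = 0
    · simp [h0]
    · have : a = 1 := by omega
      simp [this]
  | k + 1, a, W, h, ha => by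
    have h1 := HasType.comap_ib h.2 (by omega)
    have h2 : (a - 1 = k + 1) ↔ a = k + 1 + 1 := by omega
    simp only [h2] at h1
    exact h1

/-- the types are disjoint -/
theorem HasType.eq_of (B : T.Base A₀ q V0 V1 V2) :
    ∀ {k a a' : ℕ} {W : ValuationSubring (T.F (k + 1))}, a ≤ k + 1 → a' ≤ k + 1 →
      HasType T V1 k a W → HasType T V1 k a' W → a = a'
  | 0, a, a', W, ha, ha', h, h' => by
    have e : V1 (if a = 0 then 1 else 0) = V1 (if a' = 0 then 1 else 0) :=
      (show W = _ from h).symm.trans h'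
    have e' := B.inj1 e
    by_cases h0 : a = 0 <;> by_cases h0' : a' = 0 <;> simp [h0, h0'] at e' <;> omega
  | k + 1, a, a', W, ha, ha', h, h' => by
    have e1 := HasType.eq_of B (by omega) (by omega) h.1 h'.1
    have e2 := HasType.eq_of B (by omega) (by omega) h.2 h'.2
    omega

/-- `α β = β α` for comaps -/
theorem comap_comm (G : T.Gen q) (k : ℕ) (W : ValuationSubring (T.F (k + 2))) :
    (W.comap (T.be (k + 1)).toRingHom).comap (T.al k).toRingHom =
      (W.comap (T.al (k + 1)).toRingHom).comap (T.be k).toRingHom := by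
  ext y
  show T.be (k + 1) (T.al k y) ∈ W ↔ T.al (k + 1) (T.be k y) ∈ W
  rw [G.comm]

/-- the types at level `2` -/
theorem hasType_V2 (B : T.Base A₀ q V0 V1 V2) :
    HasType T V1 1 2 (V2 0) ∧ HasType T V1 1 1 (V2 1) ∧ HasType T V1 1 0 (V2 2) :=
  ⟨⟨B.comap_al2.1, B.comap_be2.1⟩, ⟨B.comap_al2.2.1, B.comap_be2.2.1⟩,
    ⟨B.comap_al2.2.2, B.comap_be2.2.2⟩⟩

/-- gluing the types of the two restrictions -/
theorem hasType_of_both (G : T.Gen q) (B : T.Base A₀ q V0 V1 V2) {k a' a'' : ℕ}
    {W : ValuationSubring (T.F (k + 3))} (ha' : a' ≤ k + 2) (ha'' : a'' ≤ k + 2)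
    (h' : HasType T V1 (k + 1) a' (W.comap (T.al (k + 2)).toRingHom))
    (h'' : HasType T V1 (k + 1) a'' (W.comap (T.be (k + 2)).toRingHom)) :
    ∃ a ≤ k + 3, HasType T V1 (k + 2) a W := by
  have h1 := h'.2
  have h2 := h''.1
  rw [comap_comm G] at h2
  have e : min a'' (k + 1) = a' - 1 := HasType.eq_of B (by omega) (by omega) h2 h1
  by_cases hc : a' ≤ k + 1
  · refine ⟨a', by omega, ?_, ?_⟩
    · have : min a' (k + 2) = a' := by omega
      rw [this]; exact h'
    · have : a' - 1 = a'' := by omega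
      rw [this]; exact h''
  · refine ⟨a'' + 1, by omega, ?_, ?_⟩
    · have : min (a'' + 1) (k + 2) = a' := by omega
      rw [this]; exact h'
    · exact h''

/-- **Completeness**: every vertical valuation has a type. -/
theorem complete_both (G : T.Gen q) (B : T.Base A₀ q V0 V1 V2) : ∀ k : ℕ,
    (∀ W : ValuationSubring (T.F (k + 1)), W.comap (T.da (k + 1)).toRingHom = V0 →
      ∃ a ≤ k + 1, HasType T V1 k a W) ∧
    (∀ W : ValuationSubring (T.F (k + 1)), W.comap (T.db (k + 1)).toRingHom = V0 →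
      ∃ a ≤ k + 1, HasType T V1 k a W)
  | 0 => by
    have key : ∀ (W : ValuationSubring (T.F 1)) (c : Fin 2), W = V1 c →
        ∃ a ≤ 0 + 1, HasType T V1 0 a W := by
      intro W c hc
      fin_cases c
      · exact ⟨1, le_refl _, hc⟩
      · exact ⟨0, by omega, hc⟩
    refine ⟨fun W hW => ?_, fun W hW => ?_⟩
    · obtain ⟨c, hc⟩ := B.complete_al1 W hW
      exact key W c hc
    · obtain ⟨c, hc⟩ := B.complete_be1 W hW
      exact key W c hc
  | 1 => by
    obtain ⟨t0, t1, t2⟩ := hasType_V2 B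
    have key : ∀ (W : ValuationSubring (T.F 2)) (c : Fin 3), W = V2 c →
        ∃ a ≤ 1 + 1, HasType T V1 1 a W := by
      intro W c hc
      subst hc
      fin_cases c
      · exact ⟨2, le_refl _, t0⟩
      · exact ⟨1, by omega, t1⟩
      · exact ⟨0, by omega, t2⟩
    refine ⟨fun W hW => ?_, fun W hW => ?_⟩
    · obtain ⟨c, hc⟩ := B.complete_a2 W hW
      exact key W c hc
    · obtain ⟨c, hc⟩ := B.complete_b2 W hW
      exact key W c hc
  | k + 2 => by
    obtain ⟨iha, ihb⟩ := complete_both G B (k + 1)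
    refine ⟨fun W hW => ?_, fun W hW => ?_⟩
    · obtain ⟨a', ha', h'⟩ := iha (W.comap (T.al (k + 2)).toRingHom) hW
      have h1 := h'.2
      rw [← comap_comm G] at h1
      have h2 := HasType.comap_da B h1
      obtain ⟨a'', ha'', h''⟩ := iha (W.comap (T.be (k + 2)).toRingHom) h2
      exact hasType_of_both G B ha' ha'' h' h''
    · obtain ⟨a'', ha'', h''⟩ := ihb (W.comap (T.be (k + 2)).toRingHom) hW
      have h1 := h''.1
      rw [comap_comm G] at h1
      have h2 := HasType.comap_db B h1
      obtain ⟨a', ha', h'⟩ := ihb (W.comap (T.al (k + 2)).toRingHom) h2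
      exact hasType_of_both G B ha' ha'' h' h''

end Fermat.Agent.S45.TabA

end
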