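/-
S45, block TAB (helper87): THE TABLE of the vertical valuations of the tower, by induction on the
level.
-/
import Fermat.Agent.S45.TabA.Type
import Fermat.Agent.S45.TabA.Case
import Fermat.Agent.S45.Tab.KronRam

set_option autoImplicit false

noncomputable section

namespace Fermat.Agent.S45.TabA

open Fermat.Agent.S18 Fermat.Agent.S36.BP Fermat.Agent.S45.Mod Fermat.Agent.S45.Tab

variable {K : Type} [Field K] (T : Tower K)

/-- The uniformiser of the valuation of type `F^a V^(L-a)` of level `L`: `q` if `a = 0` or `a = L`;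
`j(q^L z) - j(z)` if `2 a = L`; pulled back from level `L - 1` along `α` (`2 a < L`) resp. `β`
(`2 a > L`). -/
def unif (q : ℕ) : ∀ L : ℕ, ℕ → T.F L
  | 0, _ => (q : T.F 0)
  | L + 1, a => if a = 0 ∨ L + 1 ≤ a then (q : T.F (L + 1))
      else if 2 * a = L + 1 then T.db (L + 1) T.j - T.da (L + 1) T.j
      else if 2 * a < L + 1 then T.al L (unif q L a)
      else T.be L (unif q L (a - 1))

theorem unif_edge (q : ℕ) {L a : ℕ} (h : a = 0 ∨ L ≤ a) : unif T q L a = (q : T.F L) := by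
  cases L with
  | zero => rfl
  | succ L => rw [unif, if_pos h]

theorem unif_mid (q : ℕ) {L a : ℕ} (_h0 : a ≠ 0) (h : 2 * a = L + 1) :
    unif T q (L + 1) a = T.db (L + 1) T.j - T.da (L + 1) T.j := by
  rw [unif, if_neg (by omega), if_pos h]

theorem unif_lt (q : ℕ) {L a : ℕ} (h : 2 * a < L + 1) :
    unif T q (L + 1) a = T.al L (unif T q L a) := by
  by_cases h0 : a = 0
  · rw [unif_edge T q (Or.inl h0), unif_edge T q (Or.inl h0), map_natCast]
  · rw [unif, if_neg (by omega), if_neg (by omega), if_pos h]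

theorem unif_gt (q : ℕ) {L a : ℕ} (h : L + 1 < 2 * a) (ha : a ≤ L + 1) :
    unif T q (L + 1) a = T.be L (unif T q L (a - 1)) := by
  by_cases h0 : a = L + 1
  · rw [unif_edge T q (Or.inr h0.ge), unif_edge T q (Or.inr (by omega)), map_natCast]
  · rw [unif, if_neg (by omega), if_neg (by omega), if_neg (by omega)]

variable {T} {q : ℕ} {A₀ : ValuationSubring K} {V0 : ValuationSubring (T.F 0)}
  {V1 : Fin 2 → ValuationSubring (T.F 1)} {V2 : Fin 3 → ValuationSubring (T.F 2)}

theorem charZero_F (G : T.Gen q) (k : ℕ) : CharZero (T.F k) :=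
  have := G.charZero
  charZero_of_injective_algebraMap (algebraMap K (T.F k)).injective

theorem j_mem (B : T.Base A₀ q V0 V1 V2) : T.j ∈ V0 :=
  (V0.valuation_le_one_iff _).1 B.j_unit.le

/-! ### The letters -/

section Letters

variable {n a : ℕ} {W : ValuationSubring (T.F (n + 1))}

theorem HasType.val_q_lt (B : T.Base A₀ q V0 V1 V2) (h : HasType T V1 n a W) :
    W.valuation (q : T.F (n + 1)) < 1 := by
  have h1 := (cm_lt_one_iff (h.comap_da B) (q : T.F 0)).2 (approx_val_unif_lt_one B.unif0)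
  have e : (T.da (n + 1)).toRingHom (q : T.F 0) = (q : T.F (n + 1)) := map_natCast _ _
  rwa [e] at h1

theorem HasType.frobV (G : T.Gen q) (B : T.Base A₀ q V0 V1 V2) (h : HasType T V1 n a W)
    (ha : a ≤ n) : W.valuation (T.al n (T.db n T.j) - T.db (n + 1) T.j ^ q) < 1 := by
  have hc := h.comap_ib (by omega)
  rw [if_neg (by omega)] at hc
  have h1 := (cm_lt_one_iff hc _).2 B.typeV
  have e : (ib T n).toRingHom (T.al 0 T.j - T.be 0 T.j ^ q) =
      T.al n (T.db n T.j) - T.db (n + 1) T.j ^ q := by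
    show ib T n (T.al 0 T.j - T.be 0 T.j ^ q) = _
    rw [map_sub, map_pow, ib_al G, ib_be]
  rwa [e] at h1

theorem HasType.shiftV (G : T.Gen q) (B : T.Base A₀ q V0 V1 V2) (h : HasType T V1 n a W)
    (ha : a ≤ n) (r : T.F 0) (hr : r ∈ V0) :
    ∃ r' : T.F 0, W.valuation (T.al n (T.db n r) - T.db (n + 1) r') < 1 := by
  have hc := h.comap_ib (by omega)
  rw [if_neg (by omega)] at hc
  obtain ⟨r', hr'⟩ := B.denseV (T.al 0 r) ((cm_mem_iff (B.comap_al1 1) r).2 hr)
  refine ⟨r', ?_⟩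
  have h1 := (cm_lt_one_iff hc _).2 hr'
  have e : (ib T n).toRingHom (T.be 0 r' - T.al 0 r) =
      T.db (n + 1) r' - T.al n (T.db n r) := by
    show ib T n (T.be 0 r' - T.al 0 r) = _
    rw [map_sub, ib_al G, ib_be]
  rw [e] at h1
  exact Cong.symm h1

theorem HasType.frobF (G : T.Gen q) (B : T.Base A₀ q V0 V1 V2) (h : HasType T V1 n a W)
    (ha : 1 ≤ a) : W.valuation (T.be n (T.da n T.j) - T.da (n + 1) T.j ^ q) < 1 := by
  have hc := h.comap_ia
  rw [if_neg (by omega)] at hc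
  have h1 := (cm_lt_one_iff hc _).2 B.typeF
  have e : (ia T n).toRingHom (T.be 0 T.j - T.al 0 T.j ^ q) =
      T.be n (T.da n T.j) - T.da (n + 1) T.j ^ q := by
    show ia T n (T.be 0 T.j - T.al 0 T.j ^ q) = _
    rw [map_sub, map_pow, ia_be G, ia_al]
  rwa [e] at h1

theorem HasType.shiftF (G : T.Gen q) (B : T.Base A₀ q V0 V1 V2) (h : HasType T V1 n a W)
    (ha : 1 ≤ a) (r : T.F 0) (hr : r ∈ V0) :
    ∃ r' : T.F 0, W.valuation (T.be n (T.da n r) - T.da (n + 1) r') < 1 := by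
  have hc := h.comap_ia
  rw [if_neg (by omega)] at hc
  obtain ⟨r', hr'⟩ := B.denseF (T.be 0 r) ((cm_mem_iff (B.comap_be1 0) r).2 hr)
  refine ⟨r', ?_⟩
  have h1 := (cm_lt_one_iff hc _).2 hr'
  have e : (ia T n).toRingHom (T.al 0 r' - T.be 0 r) =
      T.da (n + 1) r' - T.be n (T.da n r) := by
    show ia T n (T.al 0 r' - T.be 0 r) = _
    rw [map_sub, ia_be G, ia_al]
  rw [e] at h1
  exact Cong.symm h1

end Letters

/-! ### The table -/

variable (T q) in
/-- The local properties of the valuation `W` of type `a` of level `n + 1`. -/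
structure Loc (n a : ℕ) (W : ValuationSubring (T.F (n + 1))) : Prop where
  unif : IsUnif W (unif T q (n + 1) a)
  ram : ∃ e : ℕ, 1 ≤ e ∧ e ≤ q ^ (n + 1) ∧
    W.valuation (TabA.unif T q (n + 1) a) ^ e = W.valuation (q : T.F (n + 1))
  dense_a : n + 1 ≤ 2 * a → ∀ y ∈ W, ∃ r : T.F 0, W.valuation (T.da (n + 1) r - y) < 1
  dense_b : 2 * a ≤ n + 1 → ∀ y ∈ W, ∃ r : T.F 0, W.valuation (T.db (n + 1) r - y) < 1

variable (T q V1) in
/-- The table at level `n + 1`. -/
structure Tbl (n : ℕ) : Prop where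
  ex : ∀ a ≤ n + 1, ∃ W, HasType T V1 n a W
  uniq : ∀ a ≤ n + 1, ∀ W W', HasType T V1 n a W → HasType T V1 n a W' → W = W'
  loc : ∀ a ≤ n + 1, ∀ W, HasType T V1 n a W → Loc T q n a W

/-! ### The induction step, one valuation at a time -/

/-- transfer of the ramification exponent along an unramified step -/
theorem ram_transfer {E F : Type*} [Field E] [Field F] (φ : E →+* F) {W : ValuationSubring F}
    {s : E} {e : ℕ} (he : (W.comap φ).valuation s ^ e = (W.comap φ).valuation (q : E)) :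
    W.valuation (φ s) ^ e = W.valuation (q : F) := by
  have h := cm_eq (f := φ) (W := W) rfl (x := s ^ e) (y := (q : E)) (by rw [map_pow]; exact he)
  rwa [map_pow, map_pow, map_natCast] at h

/-- **Case `b > a`.** -/
theorem step_lt (G : T.Gen q) (B : T.Base A₀ q V0 V1 V2) {k a : ℕ} (Tn : Tbl T q V1 (k + 1))
    {W : ValuationSubring (T.F (k + 2 + 1))} (h : HasType T V1 (k + 2) a W)
    (ha : 2 * a < k + 3) :
    Loc T q (k + 2) a W ∧
      IsRad q (T.al (k + 2)).toRingHom (T.Na (k + 2)) (W.comap (T.al (k + 2)).toRingHom) W := by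
  have hq := B.base.prime
  have := charZero_F G (k + 2)
  have h1 : HasType T V1 (k + 1) a (W.comap (T.al (k + 2)).toRingHom) := by
    have h' := h.1
    rwa [min_eq_left (by omega)] at h'
  have L' := Tn.loc a (by omega) _ h1
  obtain ⟨hrad, hunif, hdense⟩ := insep_case (T.al (k + 2)).toRingHom (T.db (k + 2)).toRingHom
    (T.db (k + 2 + 1)).toRingHom hq (G.dg_al (k + 2) (by omega)) L'.unif (h1.val_q_lt B) rfl
    (h1.comap_db B) (j_mem B) B.j_insep (L'.dense_b (by omega)) (h.frobV G B (by omega))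
    (h.shiftV G B (by omega))
  refine ⟨⟨?_, ?_, fun h2 => by omega, fun _ => hdense⟩, hrad⟩
  · rw [unif_lt T q (by omega)]; exact hunif
  · obtain ⟨e, he1, he2, he⟩ := L'.ram
    refine ⟨e, he1, he2.trans (Nat.pow_le_pow_right hq.pos (by omega)), ?_⟩
    rw [unif_lt T q (by omega)]
    exact ram_transfer (T.al (k + 2)).toRingHom he

/-- **Case `a > b`.** -/
theorem step_gt (G : T.Gen q) (B : T.Base A₀ q V0 V1 V2) {k a : ℕ} (Tn : Tbl T q V1 (k + 1))
    {W : ValuationSubring (T.F (k + 2 + 1))} (h : HasType T V1 (k + 2) a W)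
    (ha : k + 3 < 2 * a) (ha' : a ≤ k + 3) :
    Loc T q (k + 2) a W ∧
      IsRad q (T.be (k + 2)).toRingHom (T.Nb (k + 2)) (W.comap (T.be (k + 2)).toRingHom) W := by
  have hq := B.base.prime
  have := charZero_F G (k + 2)
  have h1 : HasType T V1 (k + 1) (a - 1) (W.comap (T.be (k + 2)).toRingHom) := h.2
  have L' := Tn.loc (a - 1) (by omega) _ h1
  obtain ⟨hrad, hunif, hdense⟩ := insep_case (T.be (k + 2)).toRingHom (T.da (k + 2)).toRingHom
    (T.da (k + 2 + 1)).toRingHom hq (G.dg_be (k + 2) (by omega)) L'.unif (h1.val_q_lt B) rfl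
    (h1.comap_da B) (j_mem B) B.j_insep (L'.dense_a (by omega)) (h.frobF G B (by omega))
    (h.shiftF G B (by omega))
  refine ⟨⟨?_, ?_, fun _ => hdense, fun h2 => by omega⟩, hrad⟩
  · rw [unif_gt T q (by omega) (by omega)]; exact hunif
  · obtain ⟨e, he1, he2, he⟩ := L'.ram
    refine ⟨e, he1, he2.trans (Nat.pow_le_pow_right hq.pos (by omega)), ?_⟩
    rw [unif_gt T q (by omega) (by omega)]
    exact ram_transfer (T.be (k + 2)).toRingHom he

/-- `j^(q²) - j` is a unit of `V0`. -/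
theorem val_j_unit (B : T.Base A₀ q V0 V1 V2) : V0.valuation ((T.j ^ q) ^ q - T.j) = 1 := by
  have h1 : V0.valuation ((T.j ^ q) ^ q - T.j) ≤ 1 :=
    (V0.valuation_le_one_iff _).2 (V0.sub_mem (pow_mem (pow_mem (j_mem B) q) q) (j_mem B))
  exact le_antisymm h1 (not_lt.1 (B.j_insep (T.j ^ q)))

/-- **Case `a = b`.** -/
theorem step_eq (G : T.Gen q) (B : T.Base A₀ q V0 V1 V2) {k a : ℕ} (Tn : Tbl T q V1 (k + 1))
    {W : ValuationSubring (T.F (k + 2 + 1))} (h : HasType T V1 (k + 2) a W)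
    (ha : 2 * a = k + 3) :
    Loc T q (k + 2) a W ∧
      IsRad q (T.al (k + 2)).toRingHom (T.Na (k + 2)) (W.comap (T.al (k + 2)).toRingHom) W ∧
      IsRad q (T.be (k + 2)).toRingHom (T.Nb (k + 2)) (W.comap (T.be (k + 2)).toRingHom) W := by
  have hq := B.base.prime
  have := charZero_F G (k + 2)
  have hc3 := charZero_F G (k + 2 + 1)
  have h1 : HasType T V1 (k + 1) a (W.comap (T.al (k + 2)).toRingHom) := by
    have h' := h.1
    rwa [min_eq_left (by omega)] at h'
  have h2 : HasType T V1 (k + 1) (a - 1) (W.comap (T.be (k + 2)).toRingHom) := h.2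
  have L1 := Tn.loc a (by omega) _ h1
  have L2 := Tn.loc (a - 1) (by omega) _ h2
  set x0 : T.F (k + 2 + 1) := T.da (k + 2 + 1) T.j with hx0
  set y0 : T.F (k + 2 + 1) := T.db (k + 2 + 1) T.j with hy0
  set x1 : T.F (k + 2 + 1) := T.be (k + 2) (T.da (k + 2) T.j) with hx1
  set y1 : T.F (k + 2 + 1) := T.al (k + 2) (T.db (k + 2) T.j) with hy1
  -- the uniformisers below
  have hm : unif T q (k + 1) (a - 1) = T.db (k + 1) T.j - T.da (k + 1) T.j :=
    unif_mid T q (by omega) (by omega)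
  have e1 : T.al (k + 2) (unif T q (k + 2) a) = y1 - x1 := by
    rw [unif_gt T q (L := k + 1) (by omega) (by omega), hm, map_sub, map_sub, ← T.db_succ,
      G.comm (k + 1), ← T.da_succ]
  have e2 : T.be (k + 2) (unif T q (k + 2) (a - 1)) = y1 - x1 := by
    rw [unif_lt T q (L := k + 1) (by omega), hm, map_sub, map_sub, ← G.comm (k + 1), ← T.db_succ,
      ← T.da_succ]
  -- Kronecker
  obtain ⟨ψ, hψ, hk⟩ := G.kron
  have k1 : kronPoly q ψ x1 x0 = 0 := by
    rw [kronPoly_symm q ψ hψ]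
    have := congrArg (ia T (k + 2)) hk
    rw [map_zero] at this
    have e := map_kronPoly (ia T (k + 2)).toRingHom q ψ (T.al 0 T.j) (T.be 0 T.j)
    have e' : kronPoly q ψ ((ia T (k + 2)).toRingHom (T.al 0 T.j))
        ((ia T (k + 2)).toRingHom (T.be 0 T.j)) = kronPoly q ψ x0 x1 := by
      congr 1
      · exact ia_al T (k + 2) T.j
      · exact ia_be G (k + 2) T.j
    rw [← e', ← e]
    exact this
  have k2 : kronPoly q ψ y1 y0 = 0 := by
    have := congrArg (ib T (k + 2)) hk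
    rw [map_zero] at this
    have e := map_kronPoly (ib T (k + 2)).toRingHom q ψ (T.al 0 T.j) (T.be 0 T.j)
    have e' : kronPoly q ψ ((ib T (k + 2)).toRingHom (T.al 0 T.j))
        ((ib T (k + 2)).toRingHom (T.be 0 T.j)) = kronPoly q ψ y1 y0 := by
      congr 1
      · exact ib_al G (k + 2) T.j
      · exact ib_be T (k + 2) T.j
    rw [← e', ← e]
    exact this
  -- memberships
  have m0 : x0 ∈ W := (cm_mem_iff (h.comap_da B) T.j).2 (j_mem B)
  have n0 : y0 ∈ W := (cm_mem_iff (h.comap_db B) T.j).2 (j_mem B)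
  have m1 : x1 ∈ W := (cm_mem_iff (h2.comap_da B) T.j).2 (j_mem B)
  have n1 : y1 ∈ W := (cm_mem_iff (h1.comap_db B) T.j).2 (j_mem B)
  have hF : W.valuation (x1 - x0 ^ q) < 1 := h.frobF G B (by omega)
  have hV : W.valuation (y1 - y0 ^ q) < 1 := h.frobV G B (by omega)
  have hA : W.valuation (x1 ^ q - x0) = 1 := by
    have c1 : Cong W (x1 ^ q - x0) ((x0 ^ q) ^ q - x0) :=
      (Cong.pow hF ((W.valuation_le_one_iff _).2 (pow_mem m0 q)) q).sub (Cong.refl W x0)
    refine c1.eq_one ?_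
    have e : (x0 ^ q) ^ q - x0 = (T.da (k + 2 + 1)).toRingHom ((T.j ^ q) ^ q - T.j) := by
      rw [map_sub, map_pow, map_pow]; rfl
    rw [e]
    exact (cm_eq_one_iff (h.comap_da B) _).2 (val_j_unit B)
  have hs : W.valuation (y1 - x1) < 1 := by
    rw [← e1]
    exact (cm_lt_one_iff (f := (T.al (k + 2)).toRingHom) rfl _).2 (approx_val_unif_lt_one L1.unif)
  obtain ⟨e, he1, he2, he⟩ := L1.ram
  have hqs : W.valuation (q : T.F (k + 2 + 1)) ≤ W.valuation (y1 - x1) := by
    rw [← e1, ← ram_transfer (T.al (k + 2)).toRingHom he]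
    refine pow_le_of_le_one zero_le ?_ (by omega)
    have := hs.le
    rwa [← e1] at this
  have hq0 : (q : T.F (k + 2 + 1)) ≠ 0 := by exact_mod_cast hq.ne_zero
  obtain ⟨hz, -⟩ := kron_ram W hq hq0 (h.val_q_lt B) ψ m0 m1 n1 n0 k1 k2 hF hV hA hs hqs
  obtain ⟨ra, ua, da⟩ := ram_case (T.al (k + 2)).toRingHom (T.da (k + 2)).toRingHom hq
    (G.dg_al (k + 2) (by omega)) (W := W) (z := y0 - x0) L1.unif (h1.val_q_lt B) rfl
    (L1.dense_a (by omega)) (hz.trans (congrArg _ e1.symm))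
  obtain ⟨rb, -, db⟩ := ram_case (T.be (k + 2)).toRingHom (T.db (k + 2)).toRingHom hq
    (G.dg_be (k + 2) (by omega)) (W := W) (z := y0 - x0) L2.unif (h2.val_q_lt B) rfl
    (L2.dense_b (by omega)) (hz.trans (congrArg _ e2.symm))
  have hu : unif T q (k + 2 + 1) a = y0 - x0 := unif_mid T q (by omega) (by omega)
  refine ⟨⟨?_, ⟨q * e, ?_, ?_, ?_⟩, fun _ => da, fun _ => db⟩, ra, rb⟩
  · rw [hu]; exact ua
  · exact Nat.mul_pos hq.pos he1
  · rw [pow_succ, mul_comm]
    exact Nat.mul_le_mul_right q he2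
  · rw [hu, pow_mul, hz, ← e1]
    exact ram_transfer (T.al (k + 2)).toRingHom he

/-! ### Radiciality at level `≥ 3` -/

theorem rad_al (G : T.Gen q) (B : T.Base A₀ q V0 V1 V2) {k a : ℕ} (Tn : Tbl T q V1 (k + 1))
    {W : ValuationSubring (T.F (k + 2 + 1))} (h : HasType T V1 (k + 2) a W)
    (ha : 2 * a ≤ k + 3) :
    IsRad q (T.al (k + 2)).toRingHom (T.Na (k + 2)) (W.comap (T.al (k + 2)).toRingHom) W := by
  rcases lt_or_eq_of_le ha with h1 | h1
  · exact (step_lt G B Tn h h1).2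
  · exact (step_eq G B Tn h h1).2.1

theorem rad_be (G : T.Gen q) (B : T.Base A₀ q V0 V1 V2) {k a : ℕ} (Tn : Tbl T q V1 (k + 1))
    {W : ValuationSubring (T.F (k + 2 + 1))} (h : HasType T V1 (k + 2) a W)
    (ha : k + 3 ≤ 2 * a) (ha' : a ≤ k + 3) :
    IsRad q (T.be (k + 2)).toRingHom (T.Nb (k + 2)) (W.comap (T.be (k + 2)).toRingHom) W := by
  rcases lt_or_eq_of_le ha with h1 | h1
  · exact (step_gt G B Tn h h1 ha').2
  · exact (step_eq G B Tn h h1.symm).2.2

/-! ### The induction -/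

theorem tbl_succ (G : T.Gen q) (B : T.Base A₀ q V0 V1 V2) {k : ℕ} (Tn : Tbl T q V1 (k + 1)) :
    Tbl T q V1 (k + 2) where
  ex := by
    intro a ha
    by_cases hc : 2 * a ≤ k + 3
    · obtain ⟨W', hW'⟩ := Tn.ex a (by omega)
      obtain ⟨W, hW⟩ := exists_comap_eq (T.al (k + 2)).toRingHom W'
      refine ⟨W, ?_, ?_⟩
      · rw [min_eq_left (by omega)]
        exact hW ▸ hW'
      · have h3 : HasType T V1 k (a - 1)
            ((W.comap (T.be (k + 2)).toRingHom).comap (T.al (k + 1)).toRingHom) := by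
          rw [comap_comm G (k + 1) W]
          exact hW ▸ hW'.2
        have h4 := h3.comap_da B
        obtain ⟨a'', ha'', h''⟩ :=
          (complete_both G B (k + 1)).1 (W.comap (T.be (k + 2)).toRingHom) h4
        have e : min a'' (k + 1) = a - 1 := HasType.eq_of B (by omega) (by omega) h''.1 h3
        have e' : a - 1 = a'' := by omega
        rw [e']
        exact h''
    · obtain ⟨W'', hW''⟩ := Tn.ex (a - 1) (by omega)
      obtain ⟨W, hW⟩ := exists_comap_eq (T.be (k + 2)).toRingHom W''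
      refine ⟨W, ?_, hW ▸ hW''⟩
      have h3 : HasType T V1 k (min (a - 1) (k + 1))
          ((W.comap (T.al (k + 2)).toRingHom).comap (T.be (k + 1)).toRingHom) := by
        rw [← comap_comm G (k + 1) W]
        exact hW ▸ hW''.1
      have h4 := h3.comap_db B
      obtain ⟨a', ha', h'⟩ :=
        (complete_both G B (k + 1)).2 (W.comap (T.al (k + 2)).toRingHom) h4
      have e : a' - 1 = min (a - 1) (k + 1) := HasType.eq_of B (by omega) (by omega) h'.2 h3
      have e' : min a (k + 2) = a' := by omega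
      rw [e']
      exact h'
  uniq := by
    intro a ha W W' h h'
    by_cases hc : 2 * a ≤ k + 3
    · exact ((rad_al G B Tn h' hc).unique W (Tn.uniq _ (by omega) _ _ h.1 h'.1))
    · exact ((rad_be G B Tn h' (by omega) ha).unique W (Tn.uniq _ (by omega) _ _ h.2 h'.2))
  loc := by
    intro a ha W h
    rcases lt_trichotomy (2 * a) (k + 3) with h1 | h1 | h1
    · exact (step_lt G B Tn h h1).1
    · exact (step_eq G B Tn h h1).1
    · exact (step_gt G B Tn h h1 ha).1

theorem X22 : T.X 2 2 = T.db 2 T.j := by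
  rw [T.X_succ_self, T.X_succ_self]; rfl

theorem X20 : T.X 2 0 = T.da 2 T.j := by
  rw [T.X_succ_of_le (Nat.zero_le 1), T.X_succ_of_le (Nat.zero_le 0)]; rfl

/-- the type of `V2 c` -/
def tc : Fin 3 → ℕ := ![2, 1, 0]

theorem hasType_V2' (B : T.Base A₀ q V0 V1 V2) (c : Fin 3) : HasType T V1 1 (tc c) (V2 c) := by
  obtain ⟨t0, t1, t2⟩ := hasType_V2 B
  fin_cases c
  · exact t0
  · exact t1
  · exact t2

theorem eq_V2 (B : T.Base A₀ q V0 V1 V2) {a : ℕ} (ha : a ≤ 2) {W : ValuationSubring (T.F 2)}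
    (h : HasType T V1 1 a W) : ∃ c, W = V2 c ∧ tc c = a := by
  obtain ⟨c, rfl⟩ := B.complete_a2 W (h.comap_da B)
  refine ⟨c, rfl, HasType.eq_of B ?_ ha (hasType_V2' B c) h⟩
  fin_cases c <;> simp [tc]

theorem tbl_one (B : T.Base A₀ q V0 V1 V2) : Tbl T q V1 1 where
  ex := by
    intro a ha
    obtain ⟨t0, t1, t2⟩ := hasType_V2 B
    have : a = 0 ∨ a = 1 ∨ a = 2 := by omega
    rcases this with rfl | rfl | rfl
    · exact ⟨_, t2⟩
    · exact ⟨_, t1⟩
    · exact ⟨_, t0⟩
  uniq := by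
    intro a ha W W' h h'
    obtain ⟨c, rfl, hc⟩ := eq_V2 B ha h
    obtain ⟨c', rfl, hc'⟩ := eq_V2 B ha h'
    have : c = c' := by
      have e : tc c = tc c' := hc.trans hc'.symm
      fin_cases c <;> fin_cases c' <;> simp [tc] at e ⊢
    rw [this]
  loc := by
    intro a ha W h
    have hq := B.base.prime
    obtain ⟨c, rfl, hc⟩ := eq_V2 B ha h
    fin_cases c
    · have e : a = 2 := hc.symm
      subst e
      have hu : unif T q (1 + 1) 2 = (q : T.F 2) := unif_edge T q (Or.inr (le_refl _))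
      refine ⟨hu ▸ B.unif20, ⟨1, le_refl _, Nat.one_le_pow _ _ hq.pos, by rw [hu, pow_one]⟩,
        fun _ => B.dense20, fun h2 => by omega⟩
    · have e : a = 1 := hc.symm
      subst e
      have hu : unif T q (1 + 1) 1 = T.X 2 2 - T.X 2 0 := by
        rw [X22, X20]; exact unif_mid T q (by omega) (by omega)
      refine ⟨hu ▸ B.unif21, ⟨q - 1, ?_, ?_, by rw [hu]; exact B.ram21⟩,
        fun _ => B.dense21a, fun _ => B.dense21b⟩
      · have := hq.two_le; omega
      · exact (Nat.sub_le q 1).trans (Nat.le_self_pow (by omega) q)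
    · have e : a = 0 := hc.symm
      subst e
      have hu : unif T q (1 + 1) 0 = (q : T.F 2) := unif_edge T q (Or.inl rfl)
      refine ⟨hu ▸ B.unif22, ⟨1, le_refl _, Nat.one_le_pow _ _ hq.pos, by rw [hu, pow_one]⟩,
        fun h2 => by omega, fun _ => B.dense22⟩

/-- **The table at every level `≥ 2`.** -/
theorem tbl (G : T.Gen q) (B : T.Base A₀ q V0 V1 V2) : ∀ k : ℕ, Tbl T q V1 (k + 1)
  | 0 => tbl_one B
  | k + 1 => tbl_succ G B (tbl G B k)

end Fermat.Agent.S45.TabA

end
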