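/-
S45, block TAB, family A (helper87): STEPS AND WINDOWS.
`st r i : T.F 1 → T.F (r + 1)` and `ww r i : T.F 2 → T.F (r + 2)` are `f(z) ↦ f(q^i z)` (`i ≤ r`);
restriction of a typed valuation along `T.dd`, `st`, `ww`.
-/
import Fermat.Agent.S45.TabA.Table

set_option autoImplicit false

noncomputable section

namespace Fermat.Agent.S45.TabA

open Fermat.Agent.S18 Fermat.Agent.S36.BP Fermat.Agent.S45.Mod Fermat.Agent.S45.Tab

variable {K : Type} [Field K] (T : Tower K)

/-- `f(z) ↦ f(q^i z)` from level `1` to level `r + 1` (`i ≤ r`). -/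
def st : ∀ r : ℕ, ℕ → (T.F 1 →ₐ[K] T.F (r + 1))
  | 0, _ => AlgHom.id K _
  | r + 1, i => if i ≤ r then (T.al (r + 1)).comp (st r i) else (T.be (r + 1)).comp (st r r)

/-- `f(z) ↦ f(q^i z)` from level `2` to level `r + 2` (`i ≤ r`). -/
def ww : ∀ r : ℕ, ℕ → (T.F 2 →ₐ[K] T.F (r + 2))
  | 0, _ => AlgHom.id K _
  | r + 1, i => if i ≤ r then (T.al (r + 2)).comp (ww r i) else (T.be (r + 2)).comp (ww r r)

theorem st_zero (i : ℕ) (y : T.F 1) : st T 0 i y = y := rfl
theorem ww_zero (i : ℕ) (y : T.F 2) : ww T 0 i y = y := rfl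

theorem st_succ_of_le {r i : ℕ} (h : i ≤ r) (y : T.F 1) :
    st T (r + 1) i y = T.al (r + 1) (st T r i y) := by
  rw [st, if_pos h]; rfl

theorem st_succ_self (r : ℕ) (y : T.F 1) :
    st T (r + 1) (r + 1) y = T.be (r + 1) (st T r r y) := by
  rw [st, if_neg (by omega)]; rfl

theorem ww_succ_of_le {r i : ℕ} (h : i ≤ r) (y : T.F 2) :
    ww T (r + 1) i y = T.al (r + 2) (ww T r i y) := by
  rw [ww, if_pos h]; rfl

theorem ww_succ_self (r : ℕ) (y : T.F 2) :
    ww T (r + 1) (r + 1) y = T.be (r + 2) (ww T r r y) := by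
  rw [ww, if_neg (by omega)]; rfl

variable {T} {q : ℕ}

theorem st_al (G : T.Gen q) : ∀ {r i : ℕ}, i ≤ r → ∀ y : T.F 0,
    st T r i (T.al 0 y) = T.dd (r + 1) i y
  | 0, i, h, y => by
    rw [st_zero, T.dd_succ_of_le h]; rfl
  | r + 1, i, h, y => by
    rcases Nat.lt_or_ge r i with h1 | h1
    · have e : i = r + 1 := by omega
      subst e
      rw [st_succ_self, st_al G le_rfl, T.dd_succ_of_le (le_refl r), ← G.comm,
        T.dd_succ_of_le (le_refl (r + 1)), T.dd_succ_self]
    · rw [st_succ_of_le T h1, st_al G h1, T.dd_succ_of_le h]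

theorem st_be (G : T.Gen q) : ∀ {r i : ℕ}, i ≤ r → ∀ y : T.F 0,
    st T r i (T.be 0 y) = T.dd (r + 1) (i + 1) y
  | 0, i, h, y => by
    have e : i = 0 := by omega
    subst e
    rw [st_zero, T.dd_succ_self]; rfl
  | r + 1, i, h, y => by
    rcases Nat.lt_or_ge r i with h1 | h1
    · have e : i = r + 1 := by omega
      subst e
      rw [st_succ_self, st_be G le_rfl, T.dd_succ_self (r + 1)]
    · rw [st_succ_of_le T h1, st_be G h1, T.dd_succ_of_le (show i + 1 ≤ r + 1 by omega)]

theorem ww_al (G : T.Gen q) : ∀ {r i : ℕ}, i ≤ r → ∀ y : T.F 1,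
    ww T r i (T.al 1 y) = st T (r + 1) i y
  | 0, i, h, y => by
    rw [ww_zero, st_succ_of_le T h, st_zero]
  | r + 1, i, h, y => by
    rcases Nat.lt_or_ge r i with h1 | h1
    · have e : i = r + 1 := by omega
      subst e
      rw [ww_succ_self, ww_al G le_rfl, st_succ_of_le T (le_refl r), ← G.comm,
        st_succ_of_le T (le_refl (r + 1)), st_succ_self]
    · rw [ww_succ_of_le T h1, ww_al G h1, st_succ_of_le T h]

theorem ww_be (G : T.Gen q) : ∀ {r i : ℕ}, i ≤ r → ∀ y : T.F 1,
    ww T r i (T.be 1 y) = st T (r + 1) (i + 1) y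
  | 0, i, h, y => by
    have e : i = 0 := by omega
    subst e
    rw [ww_zero, st_succ_self, st_zero]
  | r + 1, i, h, y => by
    rcases Nat.lt_or_ge r i with h1 | h1
    · have e : i = r + 1 := by omega
      subst e
      rw [ww_succ_self, ww_be G le_rfl, st_succ_self T (r + 1)]
    · rw [ww_succ_of_le T h1, ww_be G h1, st_succ_of_le T (show i + 1 ≤ r + 1 by omega)]

/-- `β ∘ δ_i = δ_(i+1)` -/
theorem be_dd (G : T.Gen q) : ∀ {k i : ℕ}, i ≤ k → ∀ y : T.F 0,
    T.be k (T.dd k i y) = T.dd (k + 1) (i + 1) y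
  | 0, i, h, y => by
    have e : i = 0 := by omega
    subst e
    rw [T.dd_succ_self]
  | k + 1, i, h, y => by
    rcases Nat.lt_or_ge k i with h1 | h1
    · have e : i = k + 1 := by omega
      subst e
      rw [T.dd_succ_self (k + 1)]
    · rw [T.dd_succ_of_le h1, ← G.comm, be_dd G h1,
        T.dd_succ_of_le (show i + 1 ≤ k + 1 by omega)]

theorem dd_zero_eq : ∀ (k : ℕ) (y : T.F 0), T.dd k 0 y = T.da k y
  | 0, y => rfl
  | k + 1, y => by rw [T.dd_succ_of_le (Nat.zero_le k), dd_zero_eq k, T.da_succ]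

theorem dd_self_eq : ∀ (k : ℕ) (y : T.F 0), T.dd k k y = T.db k y
  | 0, y => rfl
  | k + 1, y => by rw [T.dd_succ_self, dd_self_eq k, T.db_succ]

variable {A₀ : ValuationSubring K} {V0 : ValuationSubring (T.F 0)}
  {V1 : Fin 2 → ValuationSubring (T.F 1)} {V2 : Fin 3 → ValuationSubring (T.F 2)}

/-- the letter `i` of a typed valuation -/
theorem HasType.comap_st :
    ∀ {n a i : ℕ} {W : ValuationSubring (T.F (n + 1))}, HasType T V1 n a W → i ≤ n →
      W.comap (st T n i).toRingHom = V1 (if i < a then 0 else 1)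
  | 0, a, i, W, h, hi => by
    have h' : W = V1 (if a = 0 then 1 else 0) := h
    have e : W.comap (st T 0 i).toRingHom = W := rfl
    rw [e, h']
    congr 1
    have e0 : i = 0 := by omega
    subst e0
    by_cases h0 : a = 0
    · simp [h0]
    · simp [h0, Nat.pos_of_ne_zero h0]
  | n + 1, a, i, W, h, hi => by
    rcases Nat.lt_or_ge n i with h1 | h1
    · have e : i = n + 1 := by omega
      subst e
      have h2 := HasType.comap_st (i := n) h.2 le_rfl
      have e2 : W.comap (st T (n + 1) (n + 1)).toRingHom =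
          (W.comap (T.be (n + 1)).toRingHom).comap (st T n n).toRingHom := by
        ext y
        show st T (n + 1) (n + 1) y ∈ W ↔ T.be (n + 1) (st T n n y) ∈ W
        rw [st_succ_self]
      rw [e2, h2]
      congr 1
      by_cases h3 : n + 1 < a
      · rw [if_pos h3, if_pos (by omega)]
      · rw [if_neg h3, if_neg (by omega)]
    · have h2 := HasType.comap_st (i := i) h.1 h1
      have e2 : W.comap (st T (n + 1) i).toRingHom =
          (W.comap (T.al (n + 1)).toRingHom).comap (st T n i).toRingHom := by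
        ext y
        show st T (n + 1) i y ∈ W ↔ T.al (n + 1) (st T n i y) ∈ W
        rw [st_succ_of_le T h1]
      rw [e2, h2]
      congr 1
      by_cases h3 : i < a
      · rw [if_pos h3, if_pos (by omega)]
      · rw [if_neg h3, if_neg (by omega)]

/-- restriction along `δ_i` -/
theorem HasType.comap_dd (G : T.Gen q) (B : T.Base A₀ q V0 V1 V2) {n a i : ℕ}
    {W : ValuationSubring (T.F (n + 1))} (h : HasType T V1 n a W) (hi : i ≤ n + 1) :
    W.comap (T.dd (n + 1) i).toRingHom = V0 := by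
  rcases Nat.lt_or_ge n i with h1 | h1
  · have e : i = n + 1 := by omega
    subst e
    have e2 : W.comap (T.dd (n + 1) (n + 1)).toRingHom =
        (W.comap (st T n n).toRingHom).comap (T.be 0).toRingHom := by
      ext y
      show T.dd (n + 1) (n + 1) y ∈ W ↔ st T n n (T.be 0 y) ∈ W
      rw [st_be G le_rfl]
    rw [e2, h.comap_st le_rfl]
    exact B.comap_be1 _
  · have e2 : W.comap (T.dd (n + 1) i).toRingHom =
        (W.comap (st T n i).toRingHom).comap (T.al 0).toRingHom := by
      ext y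
      show T.dd (n + 1) i y ∈ W ↔ st T n i (T.al 0 y) ∈ W
      rw [st_al G h1]
    rw [e2, h.comap_st h1]
    exact B.comap_al1 _

/-- the window `i` (letters `i`, `i + 1`) of a typed valuation -/
theorem HasType.comap_ww (G : T.Gen q) (B : T.Base A₀ q V0 V1 V2) {n a i : ℕ}
    {W : ValuationSubring (T.F (n + 1 + 1))} (h : HasType T V1 (n + 1) a W) (hi : i ≤ n) :
    W.comap (ww T n i).toRingHom = V2 (if i + 1 < a then 0 else if i < a then 1 else 2) := by
  have e1 : (W.comap (ww T n i).toRingHom).comap (T.al 1).toRingHom =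
      W.comap (st T (n + 1) i).toRingHom := by
    ext y
    show ww T n i (T.al 1 y) ∈ W ↔ st T (n + 1) i y ∈ W
    rw [ww_al G hi]
  have e2 : (W.comap (ww T n i).toRingHom).comap (T.be 1).toRingHom =
      W.comap (st T (n + 1) (i + 1)).toRingHom := by
    ext y
    show ww T n i (T.be 1 y) ∈ W ↔ st T (n + 1) (i + 1) y ∈ W
    rw [ww_be G hi]
  rw [h.comap_st (by omega)] at e1 e2
  obtain ⟨t0, t1, t2⟩ := hasType_V2 B
  by_cases h1 : i + 1 < a
  · rw [if_pos h1]
    rw [if_pos (by omega)] at e1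
    rw [if_pos h1] at e2
    exact (tbl_one B).uniq 2 (by omega) _ _ ⟨e1, e2⟩ t0
  · rw [if_neg h1]
    rw [if_neg h1] at e2
    by_cases h2 : i < a
    · rw [if_pos h2]
      rw [if_pos h2] at e1
      exact (tbl_one B).uniq 1 (by omega) _ _ ⟨e1, e2⟩ t1
    · rw [if_neg h2]
      rw [if_neg h2] at e1
      exact (tbl_one B).uniq 0 (by omega) _ _ ⟨e1, e2⟩ t2

end Fermat.Agent.S45.TabA

end
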