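/-
S45, block TAB, family A (helper87): **`Ind.NodeTab`**, the contract of block TAB of the final assembly
(`S45/Ind/Defs.lean`, helper41), proved from the table `TabA.tbl` on `Mod.Tower`.
-/
import Fermat.Agent.S45.TabA.Win
import Fermat.Agent.S45.Ind.Defs

set_option autoImplicit false

noncomputable section

namespace Fermat.Agent.S45.TabA

open Fermat.Agent.S18 Fermat.Agent.S36.BP Fermat.Agent.S45.Mod Fermat.Agent.S45.Tab
  Fermat.Agent.S45.K

variable {K : Type} [Field K] {T : Tower K} {q : ℕ} {A₀ : ValuationSubring K}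
  {V0 : ValuationSubring (T.F 0)} {V1 : Fin 2 → ValuationSubring (T.F 1)}
  {V2 : Fin 3 → ValuationSubring (T.F 2)}

/-- a uniformiser may be replaced by an element of the same valuation -/
theorem isUnif_of_val_eq {F : Type*} [Field F] {V : ValuationSubring F} {ϖ z : F}
    (hU : IsUnif V ϖ) (hz : V.valuation z = V.valuation ϖ) : IsUnif V z := by
  have key : ∀ a b : F, V.valuation a = V.valuation b → (a ∈ V ↔ b ∈ V) := by
    intro a b h
    rw [← V.valuation_le_one_iff, ← V.valuation_le_one_iff, h]
  refine ⟨(key _ _ hz).2 hU.mem, fun hinv => hU.inv_notMem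
    ((key _ _ (by rw [map_inv₀, map_inv₀, hz])).1 hinv), fun y hy => ?_⟩
  obtain ⟨m, h1, h2⟩ := hU.exists_zpow y hy
  have e : V.valuation (y / z ^ m) = V.valuation (y / ϖ ^ m) := by
    rw [map_div₀, map_div₀, map_zpow₀, map_zpow₀, hz]
  exact ⟨m, (key _ _ e).2 h1, (key _ _ (by rw [map_inv₀, map_inv₀, e])).2 h2⟩

/-! ### Existence, uniqueness and local properties at every level `≥ 1` -/

theorem ex_type (G : T.Gen q) (B : T.Base A₀ q V0 V1 V2) :
    ∀ (n a : ℕ), a ≤ n + 1 → ∃ W, HasType T V1 n a W
  | 0, a, _ => ⟨V1 (if a = 0 then 1 else 0), rfl⟩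
  | n + 1, a, ha => (tbl G B n).ex a ha

theorem uniq_type (G : T.Gen q) (B : T.Base A₀ q V0 V1 V2) :
    ∀ (n a : ℕ), a ≤ n + 1 → ∀ W W', HasType T V1 n a W → HasType T V1 n a W' → W = W'
  | 0, _, _, W, W', h, h' => (show W = _ from h).trans (show W' = _ from h').symm
  | n + 1, a, ha, W, W', h, h' => (tbl G B n).uniq a ha W W' h h'

theorem loc_type (G : T.Gen q) (B : T.Base A₀ q V0 V1 V2) :
    ∀ (n a : ℕ), a ≤ n + 1 → ∀ W, HasType T V1 n a W → Loc T q n a W
  | 0, a, ha, W, h => by
    have hq := B.base.prime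
    have h' : W = V1 (if a = 0 then 1 else 0) := h
    have hu : unif T q (0 + 1) a = (q : T.F 1) := unif_edge T q (by omega)
    subst h'
    refine ⟨hu ▸ B.unif1 _, ⟨1, le_refl _, Nat.one_le_pow _ _ hq.pos, by rw [hu, pow_one]⟩,
      fun h2 => ?_, fun h2 => ?_⟩
    · rw [if_neg (by omega)]
      exact B.denseF
    · rw [if_pos (by omega)]
      exact B.denseV
  | n + 1, a, ha, W, h => (tbl G B n).loc a ha W h

/-! ### The explicit uniformiser -/

theorem unif_eq_dd (G : T.Gen q) : ∀ (L a : ℕ), 0 < a → a < L →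
    unif T q L a = T.dd L (a + min (L - a) a) T.j - T.dd L (a - min (L - a) a) T.j
  | 0, a, _, h => by omega
  | L + 1, a, h0, h => by
    rcases lt_trichotomy (2 * a) (L + 1) with h1 | h1 | h1
    · rw [unif_lt T q h1, unif_eq_dd G L a h0 (by omega), map_sub,
        ← T.dd_succ_of_le (by omega), ← T.dd_succ_of_le (by omega)]
      have e1 : min (L - a) a = a := by omega
      have e2 : min (L + 1 - a) a = a := by omega
      rw [e1, e2]
    · rw [unif_mid T q (by omega) h1]
      have e2 : min (L + 1 - a) a = a := by omega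
      have e3 : a + a = L + 1 := by omega
      rw [e2, e3, Nat.sub_self, dd_self_eq, dd_zero_eq]
    · rw [unif_gt T q h1 (by omega), unif_eq_dd G L (a - 1) (by omega) (by omega), map_sub,
        be_dd G (by omega), be_dd G (by omega)]
      have e1 : a - 1 + min (L - (a - 1)) (a - 1) + 1 = a + min (L + 1 - a) a := by omega
      have e2 : a - 1 - min (L - (a - 1)) (a - 1) + 1 = a - min (L + 1 - a) a := by omega
      rw [e1, e2]

/-! ### The family -/

/-- the vertical valuation ring of type `F^(k-b) V^b` of level `k` -/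
def famW (G : T.Gen q) (B : T.Base A₀ q V0 V1 V2) : ∀ k, ℕ → ValuationSubring (T.F k)
  | 0, _ => V0
  | n + 1, b => if h : b ≤ n + 1 then (ex_type G B n (n + 1 - b) (by omega)).choose else ⊤

theorem famW_type (G : T.Gen q) (B : T.Base A₀ q V0 V1 V2) {n b : ℕ} (hb : b ≤ n + 1) :
    HasType T V1 n (n + 1 - b) (famW G B (n + 1) b) := by
  rw [famW, dif_pos hb]
  exact (ex_type G B n (n + 1 - b) (by omega)).choose_spec

/-- a valuation of type `a` is the member `n + 1 - a` of the family -/
theorem eq_famW (G : T.Gen q) (B : T.Base A₀ q V0 V1 V2) {n a b : ℕ} (hb : b ≤ n + 1)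
    (hab : a = n + 1 - b) {W : ValuationSubring (T.F (n + 1))} (h : HasType T V1 n a W) :
    W = famW G B (n + 1) b :=
  uniq_type G B n a (by omega) _ _ h (hab ▸ famW_type G B hb)

variable (T q) in
/-- the uniformisers -/
def famPi : ∀ k, ℕ → T.F k := fun k b => unif T q k (k - b)

theorem toRad {F₁ F : Type*} [Field F₁] [Field F] {φ : F₁ →+* F} {N : F →* F}
    {U : ValuationSubring F₁} {W : ValuationSubring F} (h : IsRad q φ N U W) : Rad q N W :=
  ⟨h.ord, h.res⟩

theorem tabOut (G : T.Gen q) (B : T.Base A₀ q V0 V1 V2) :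
    Ind.TabOut T q V0 V1 V2 ⟨famW G B, famPi T q⟩ where
  lvl1 := by
    intro c
    have h : HasType T V1 0 (0 + 1 - (c : ℕ)) (famW G B (0 + 1) c) := famW_type G B (by omega)
    have h' : famW G B (0 + 1) c = V1 (if 0 + 1 - (c : ℕ) = 0 then 1 else 0) := h
    show famW G B (0 + 1) c = V1 c
    rw [h']
    fin_cases c <;> simp
  lvl2 := by
    intro c
    have h : HasType T V1 1 (1 + 1 - (c : ℕ)) (famW G B (1 + 1) c) := famW_type G B (by omega)
    have e : tc c = 1 + 1 - (c : ℕ) := by fin_cases c <;> simp [tc]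
    exact uniq_type G B 1 _ (by omega) _ _ h (e ▸ hasType_V2' B c)
  complete := by
    rintro (_ | n) hk W' hW'
    · omega
    · obtain ⟨a, ha, h⟩ := (complete_both G B n).1 W' hW'
      exact ⟨n + 1 - a, by omega, eq_famW G B (by omega) (by omega) h⟩
  inj := by
    rintro (_ | n) hk b hb b' hb' e
    · omega
    · have h := famW_type G B hb
      have h' := famW_type G B hb'
      have e' : famW G B (n + 1) b = famW G B (n + 1) b' := e
      rw [e'] at h
      have := HasType.eq_of B (by omega) (by omega) h h'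
      omega
  unif := by
    rintro (_ | n) hk b hb
    · omega
    · exact (loc_type G B n _ (by omega) _ (famW_type G B hb)).unif
  ram := by
    rintro (_ | n) hk b hb
    · omega
    · exact (loc_type G B n _ (by omega) _ (famW_type G B hb)).ram
  unif_zero := fun k _ => unif_edge T q (Or.inr (by omega))
  unif_top := fun k _ => unif_edge T q (Or.inl (by omega))
  resA := by
    rintro (_ | n) hk b hb
    · omega
    · have h := (famW_type G B (n := n + 1) hb).1
      exact eq_famW G B (by omega) (by omega) h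
  resB := by
    rintro (_ | n) hk b hb
    · omega
    · have h := (famW_type G B (n := n + 1) hb).2
      exact eq_famW G B (by omega) (by omega) h
  rad := by
    rintro (_ | _ | n) hk b hb
    · omega
    · omega
    · have h := famW_type G B (n := n + 2) hb
      by_cases hc : 2 * (n + 2 + 1 - b) ≤ n + 3
      · exact Or.inl (toRad (rad_al G B (tbl G B n) h hc))
      · exact Or.inr (toRad (rad_be G B (tbl G B n) h (by omega) (by omega)))
  radB := by
    rintro (_ | _ | n) hk
    · omega
    · have e : famW G B (1 + 1) 0 = V2 0 :=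
        uniq_type G B 1 2 (by omega) _ _ (famW_type G B (n := 1) (b := 0) (by omega))
          (hasType_V2 B).1
      show Rad q (T.Nb 1) (famW G B (1 + 1) 0)
      rw [e]
      exact ⟨B.halfβ.ord_b, B.halfβ.res_b⟩
    · have h := famW_type G B (n := n + 2) (b := 0) (by omega)
      exact toRad (rad_be G B (tbl G B n) h (by omega) (by omega))
  radA := by
    rintro (_ | _ | n) hk
    · omega
    · have e : famW G B (1 + 1) (1 + 1) = V2 2 :=
        uniq_type G B 1 0 (by omega) _ _ (famW_type G B (n := 1) (b := 2) (by omega))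
          (hasType_V2 B).2.2
      show Rad q (T.Na 1) (famW G B (1 + 1) (1 + 1))
      rw [e]
      exact ⟨B.halfα.ord_b, B.halfα.res_b⟩
    · have h := famW_type G B (n := n + 2) (b := n + 2 + 1) (by omega)
      exact toRad (rad_al G B (tbl G B n) h (by omega))
  dense_lo := by
    rintro (_ | n) hk b hb h2
    · omega
    · exact (loc_type G B n _ (by omega) _ (famW_type G B hb)).dense_a (by omega)
  dense_hi := by
    rintro (_ | n) hk b hb h2
    · omega
    · exact (loc_type G B n _ (by omega) _ (famW_type G B hb)).dense_b (by omega)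
  unif_mid := by
    rintro (_ | n) b h0 hb
    · omega
    · have ht := famW_type G B (n := n) (b := b) (by omega)
      have hU := (loc_type G B n _ (by omega) _ ht).unif
      rw [unif_eq_dd G (n + 1) (n + 1 - b) (by omega) (by omega)] at hU
      have e1 : min (n + 1 - (n + 1 - b)) (n + 1 - b) = min b (n + 1 - b) := by
        congr 1; omega
      rw [e1] at hU
      set u := T.dd (n + 1) (n + 1 - b + min b (n + 1 - b)) T.j with hu
      set v := T.dd (n + 1) (n + 1 - b - min b (n + 1 - b)) T.j with hv
      have hv1 : (famW G B (n + 1) b).valuation v = 1 :=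
        (cm_eq_one_iff (ht.comap_dd G B (by omega)) T.j).2 B.j_unit
      have hv0 : v ≠ 0 := ne_zero_of_valuation_eq_one hv1
      refine isUnif_of_val_eq hU ?_
      have e : u / v - 1 = (u - v) / v := by field_simp
      rw [e, map_div₀, hv1, div_one]

/-- **Node TAB.** -/
theorem nodeTab : Ind.NodeTab := fun _ _ T _ q _ _ _ G B _ => ⟨⟨famW G B, famPi T q⟩, tabOut G B⟩

end Fermat.Agent.S45.TabA

end
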